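-- Reduction of S01 (Fermat's Last Theorem) to the non-existence of Frey packages.
import Mathlib.NumberTheory.FLT.Four
import Mathlib.NumberTheory.FLT.Three
import Fermat.Agent.S02

set_option autoImplicit false

namespace Fermat.Agent.S01

/-- FLT follows from the non-existence of Frey packages. -/
theorem flt_of_no_frey (h : FreyPackage → False) (n : ℕ) (hn : 3 ≤ n) (a b c : ℕ) (ha : 0 < a)
    (hb : 0 < b) (hc : 0 < c) : a ^ n + b ^ n ≠ c ^ n := by
  have key : FermatLastTheorem := by
    apply FermatLastTheorem.of_odd_primes
    intro p pp hodd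
    by_cases h3 : p = 3
    · subst h3; exact fermatLastTheoremThree
    · have hp5 : 5 ≤ p := by
        have h2 := pp.two_le
        rcases hodd with ⟨k, hk⟩
        by_contra hlt
        have : p = 2 ∨ p = 3 ∨ p = 4 := by omega
        omega
      rw [fermatLastTheoremFor_iff_int]
      intro x y z hx hy hz H
      obtain ⟨P⟩ := Fermat.Agent.S02.result x y z hx hy hz p pp hp5 H
      exact h P
  exact key n hn a b c ha.ne' hb.ne' hc.ne'

end Fermat.Agent.S01
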